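import Fermat.Agent.S59.LoSqC.H630.LabPull
import Fermat.Agent.S36.H630.LeafPure
import Fermat.Agent.S36.Alg3.Skel
import Fermat.Agent.Ribet.H769.HorDesc

/-!
# S59 / cell (C) LO-SQ, leaf W-SUB, TORIC half: the toric wall at level `q² M'` (helper630)

Context: `Eng.TripleCtx w q α β x x' V₁ V₂ V₃ V₁' V₂'` (level `q² M'` over level `q M'`, the three
components `V₁, V₂, V₃` of the special fibre, the two components `V₁', V₂'` below).

* `Lab1SurjE E w x' V₁' V₂' m ζ` : the ONLY input from level `q M'` (leaf LAB1-SURJ, E-form):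
  every assignment `lam` of labels to the nodes of the finite chart below is the label vector of a
  function `g` with `m ∣ div g`, `g ≡ 1` on `V₁'` and `V₂'` (label `lam n'` along `V₁'`, `0` along
  `V₂'`; only `ζ ^ label` matters).
* `divisibleDiv_map630` : `m ∣ div g` ⟹ `m ∣ div (φ g)` for an embedding `φ` of function fields.
* `exists_pull_label630` : one side (`α` or `β`): a function below whose pull-back has prescribed
  labels at the points of a set `P` of closed points above which are alone in their fibres.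
* `toricWall630` : **the toric wall.**  `Lab1SurjE` ⟹ every `u ≡ 1` on `V₁, V₂, V₃` with
  `m ∣ div u` is `α g⁻¹ · β g'⁻¹ · h ^ m`, precisely `u * α g * β g' = h ^ m` with `g, g'` from
  level `q M'` (`m ∣ div`, `≡ 1` on `V₁', V₂'`).  NO hypothesis on norms.

Proof of the wall: labels `(a₁, a₂, 0)` of `u` at the triple points (`labelAt_exists3`), `g` with
labels `- a₂` via `α` (colours `V₁, V₂ ↦ V₁'`, `V₃ ↦ V₂'`), `g'` with labels `a₂ - a₁` via `β`
(colours `V₁ ↦ V₁'`, `V₂, V₃ ↦ V₂'`); the product has trivial labels; at the other closed points at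
most one sheet passes; wall `S36.H193.exists_pow_eq_of_three` with the zero colouring.
-/

set_option autoImplicit false
set_option linter.unusedSectionVars false
set_option linter.unusedVariables false
set_option linter.style.haveILetI false
set_option synthInstance.maxHeartbeats 400000
set_option maxHeartbeats 1600000

namespace Fermat.Agent.S59.LoSqC.H630

open Fermat.Agent.S36.H630
open Fermat.Agent.S18.H138 (chart mem_chart)
open Fermat.Agent.S36.H193 (BasePureValuesAt)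
open Fermat.Agent.S36.Eng (TripleCtx)
open Fermat.Agent.A2 (DivisibleDiv)
open AlgebraicCurve

/-! ## `m ∣ div` under products and embeddings -/

section Div

variable {E F' F : Type*} [Field E] [Field F'] [Field F] [Algebra E F'] [Algebra E F]

theorem divisibleDiv_mul630 {m : ℕ} {f g : F} (hf : DivisibleDiv E m f)
    (hg : DivisibleDiv E m g) : DivisibleDiv E m (f * g) := by
  intro V hV hE
  obtain ⟨h₁, u₁, hh₁, hu₁, hu₁', rfl⟩ := hf V hV hE
  obtain ⟨h₂, u₂, hh₂, hu₂, hu₂', rfl⟩ := hg V hV hE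
  refine ⟨h₁ * h₂, u₁ * u₂, mul_ne_zero hh₁ hh₂, V.mul_mem _ _ hu₁ hu₂, ?_, ?_⟩
  · rw [mul_inv]
    exact V.mul_mem _ _ hu₁' hu₂'
  · ring

/-- In a discrete valuation subring every valuation is a power of the valuation of a
uniformiser. -/
theorem exists_val_eq_zpow630 (V : ValuationSubring F) [IsDiscreteValuationRing V] :
    ∃ ϖ : F, ϖ ≠ 0 ∧ V.valuation ϖ < 1 ∧
      ∀ f : F, f ≠ 0 → ∃ k : ℤ, V.valuation f = V.valuation ϖ ^ k := by
  obtain ⟨ϖ, hϖ⟩ := IsDiscreteValuationRing.exists_irreducible V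
  have hϖ0 : (ϖ : F) ≠ 0 := fun h => hϖ.ne_zero (Subtype.ext h)
  have hϖlt : V.valuation (ϖ : F) < 1 := by
    rw [← ValuationSubring.valuation_lt_one_iff]
    exact (IsLocalRing.mem_maximalIdeal _).2 hϖ.not_isUnit
  have key : ∀ z : F, z ≠ 0 → z ∈ V → ∃ n : ℕ, V.valuation z = V.valuation (ϖ : F) ^ n := by
    intro z hz0 hzV
    have hz0' : (⟨z, hzV⟩ : V) ≠ 0 := fun h => hz0 (congrArg Subtype.val h)
    obtain ⟨n, hn⟩ := IsDiscreteValuationRing.associated_pow_irreducible hz0' hϖ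
    obtain ⟨u, hu⟩ := hn
    refine ⟨n, ?_⟩
    have h1 : z * ((u : V) : F) = (ϖ : F) ^ n := by
      have := congrArg Subtype.val hu
      simpa using this
    have h2 : V.valuation (((u : V) : F)) = 1 := ValuationSubring.valuation_unit V u
    have h3 := congrArg V.valuation h1
    rw [map_mul, h2, mul_one, map_pow] at h3
    exact h3
  refine ⟨ϖ, hϖ0, hϖlt, fun f hf => ?_⟩
  rcases V.mem_or_inv_mem f with h | h
  · obtain ⟨n, hn⟩ := key f hf h
    exact ⟨n, by rw [hn, zpow_natCast]⟩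
  · obtain ⟨n, hn⟩ := key f⁻¹ (inv_ne_zero hf) h
    refine ⟨-n, ?_⟩
    rw [map_inv₀] at hn
    rw [zpow_neg, zpow_natCast, ← hn, inv_inv]

/-- **`m ∣ div` is stable under embeddings of function fields.** -/
theorem divisibleDiv_map630 (φ : F' →ₐ[E] F) {m : ℕ} {g : F'} (hg0 : g ≠ 0)
    (hdiv : DivisibleDiv E m g) : DivisibleDiv E m (φ g) := by
  intro V hV hE
  haveI := hV
  obtain ⟨ϖ, hϖ0, hϖlt, hval⟩ := exists_val_eq_zpow630 V
  rcases Fermat.Agent.Ribet.H769.comap_trivial_or_dvr769 V hϖ0 hϖlt hval (φ : F' →+* F)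
    with htriv | hdvr
  · have h1 : V.valuation (φ g) = 1 := htriv g hg0
    refine ⟨1, φ g, one_ne_zero, ?_, ?_, by rw [one_pow, mul_one]⟩
    · exact (V.valuation_le_one_iff _).1 h1.le
    · rw [← ValuationSubring.valuation_le_one_iff, map_inv₀, h1, inv_one]
  · obtain ⟨h, u, hh, hu, hu', hfu⟩ := hdiv (V.comap (φ : F' →+* F)) hdvr (fun e => by
      rw [ValuationSubring.mem_comap]
      have : (φ : F' →+* F) (algebraMap E F' e) = algebraMap E F e := φ.commutes e
      rw [this]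
      exact hE e)
    refine ⟨φ h, φ u, (map_ne_zero φ).2 hh, hu, ?_, ?_⟩
    · have h2 : (φ : F' →+* F) u⁻¹ ∈ V := hu'
      rw [map_inv₀] at h2
      exact h2
    · rw [hfu, map_mul, map_pow]

end Div

/-! ## congruences to `1` -/

section One

variable {K L : Type*} [Field K] [Field L]

theorem mem_nonunits_comap630 (φ : K →+* L) (W : ValuationSubring L) (y : K) :
    y ∈ (W.comap φ).nonunits ↔ φ y ∈ W.nonunits := by
  letI := φ.toAlgebra
  exact mem_nonunits_comap_iff W y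

theorem sub_one_map630 (φ : K →+* L) (W : ValuationSubring L) {y : K}
    (h : y - 1 ∈ (W.comap φ).nonunits) : φ y - 1 ∈ W.nonunits := by
  rw [mem_nonunits_comap630, map_sub, map_one] at h
  exact h

theorem sub_one_mul630 (V : ValuationSubring L) {a b : L} (ha : a - 1 ∈ V.nonunits)
    (hb : b - 1 ∈ V.nonunits) : a * b - 1 ∈ V.nonunits := by
  have hbV : b ∈ V := (unit_of_split hb).2.1
  have : a * b - 1 = (a - 1) * b + (b - 1) := by ring
  rw [this]
  exact vnu_add V (vnu_mul_right V ha hbV) hb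

/-- `ζ ^ a · ζ ^ ((m - 1) a) = 1`. -/
theorem zeta_cancel630 {A : Type*} [CommMonoid A] {ζ : A} {m : ℕ} (hm : 0 < m)
    (hζ : ζ ^ m = 1) (a : ℕ) : ζ ^ a * ζ ^ ((m - 1) * a) = 1 := by
  have h1 : a + (m - 1) * a = m * a := by
    obtain ⟨k, rfl⟩ := Nat.exists_eq_succ_of_ne_zero hm.ne'
    rw [Nat.succ_sub_one, Nat.succ_mul, add_comm]
  rw [← pow_add, h1, pow_mul, hζ, one_pow]

end One

/-! ## The input from level `q M'` -/

/-- **LAB1-SURJ, E-form** (the input of the toric wall from level `q M'`): every assignment `lam`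
of labels to the closed points of the finite chart `chart R {x'}` is realised, at the nodes (the
closed points of the special fibre through which both `V₁'` and `V₂'` pass), by a function `g`
with `m ∣ div g` and `g ≡ 1` on `V₁'`, `V₂'`: label `lam n'` along `V₁'` and `0` along `V₂'`. -/
def Lab1SurjE (E : Type*) [Field E] {R : Type*} [CommRing R] {F' : Type*} [Field F']
    [Algebra R F'] [Algebra E F'] (w : R) (x' : F') (V₁' V₂' : ValuationSubring F') (m : ℕ)
    (ζ : R) : Prop :=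
  ∀ lam : Ideal (chart R ({x'} : Set F')) → ℕ,
    ∃ g : F', g ≠ 0 ∧ DivisibleDiv E m g ∧ g - 1 ∈ V₁'.nonunits ∧ g - 1 ∈ V₂'.nonunits ∧
      ∀ n' : Ideal (chart R ({x'} : Set F')), n'.IsMaximal →
        algebraMap R (chart R ({x'} : Set F')) w ∈ n' →
        PassThrough (chart R ({x'} : Set F')) n' V₁' →
        PassThrough (chart R ({x'} : Set F')) n' V₂' →
        ∃ κ' : ValuationSubring F' → ℕ, ζ ^ κ' V₁' = ζ ^ lam n' ∧ ζ ^ κ' V₂' = 1 ∧
          LabelAt (chart R ({x'} : Set F')) n' {V | V = V₁' ∨ V = V₂'} m g ζ κ'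

/-! ## One side -/

section SideSurj

variable {R : Type*} [CommRing R] [IsLocalRing R]
variable {E : Type*} [Field E]
variable {F' : Type*} [Field F'] [Algebra R F'] [Algebra E F']
variable {F : Type*} [Field F] [Algebra R F] [Algebra F' F] [IsScalarTower R F' F]
variable {x : F} {x' : F'}
  (hchart : ∀ b ∈ chart R ({x'} : Set F'), algebraMap F' F b ∈ chart R ({x} : Set F))

/-- **One side of the toric wall.**  `P` a set of closed points of the chart above, each alone in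
its fibre, lying over nodes of the chart below; `L` an assignment of labels to the points of `P`.
Then there is `g` below whose label datum at the point below `n ∈ P` is `(L n, 0)`; its
pull-back has the colouring `V ↦ κ' (V.comap)` at `n`. -/
theorem exists_pull_label630
    (hint : ∀ b ∈ chart R ({x} : Set F), ∃ p : Polynomial F', p.Monic ∧
      (∀ i, p.coeff i ∈ chart R ({x'} : Set F')) ∧ (p.map (algebraMap F' F)).eval b = 0)
    {w : R} {m : ℕ} {ζ : R} {V' V'' : ValuationSubring F'}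
    (hLab : Lab1SurjE E w x' V' V'' m ζ)
    (P : Ideal (chart R ({x} : Set F)) → Prop)
    (hPmax : ∀ n, P n → n.IsMaximal)
    (hPw : ∀ n, P n → algebraMap R (chart R ({x} : Set F)) w ∈ n)
    (hPuniq : ∀ n n', P n → P n' →
      n.comap (chartIncl hchart) = n'.comap (chartIncl hchart) → n' = n)
    (hPth' : ∀ n, P n →
      PassThrough (chart R ({x'} : Set F')) (n.comap (chartIncl hchart)) V')
    (hPth'' : ∀ n, P n →
      PassThrough (chart R ({x'} : Set F')) (n.comap (chartIncl hchart)) V'')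
    (L : Ideal (chart R ({x} : Set F)) → ℕ) :
    ∃ g : F', g ≠ 0 ∧ DivisibleDiv E m g ∧ g - 1 ∈ V'.nonunits ∧ g - 1 ∈ V''.nonunits ∧
      ∀ n, P n → ∃ κ' : ValuationSubring F' → ℕ, ζ ^ κ' V' = ζ ^ L n ∧ ζ ^ κ' V'' = 1 ∧
        ∀ 𝒱 : Set (ValuationSubring F),
          (∀ V ∈ 𝒱, V.comap (algebraMap F' F) = V' ∨ V.comap (algebraMap F' F) = V'') →
          LabelAt (chart R ({x} : Set F)) n 𝒱 m (algebraMap F' F g) ζ
            (fun V => κ' (V.comap (algebraMap F' F))) := by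
  classical
  have hιint : (chartIncl hchart).IsIntegral := chartIncl_isIntegral hchart hint
  let lam : Ideal (chart R ({x'} : Set F')) → ℕ := fun n' =>
    if h : ∃ n, P n ∧ n.comap (chartIncl hchart) = n' then L h.choose else 0
  obtain ⟨g, hg0, hgdiv, hg', hg'', hglab⟩ := hLab lam
  refine ⟨g, hg0, hgdiv, hg', hg'', fun n hn => ?_⟩
  haveI := hPmax n hn
  have hmax : (n.comap (chartIncl hchart)).IsMaximal :=
    Ideal.isMaximal_comap_of_isIntegral_of_isMaximal' (chartIncl hchart) hιint n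
  have hw' : algebraMap R (chart R ({x'} : Set F')) w ∈ n.comap (chartIncl hchart) := by
    rw [Ideal.mem_comap, chartIncl_algebraMap]
    exact hPw n hn
  obtain ⟨κ', h1, h2, hl⟩ := hglab (n.comap (chartIncl hchart)) hmax hw' (hPth' n hn)
    (hPth'' n hn)
  have hex : ∃ n₀, P n₀ ∧ n₀.comap (chartIncl hchart) = n.comap (chartIncl hchart) :=
    ⟨n, hn, rfl⟩
  have hlam : lam (n.comap (chartIncl hchart)) = L n := by
    show (if h : ∃ n₀, P n₀ ∧ n₀.comap (chartIncl hchart) = n.comap (chartIncl hchart)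
      then L h.choose else 0) = L n
    rw [dif_pos hex]
    congr 1
    exact hPuniq n hex.choose hn hex.choose_spec.1 hex.choose_spec.2.symm
  refine ⟨κ', by rw [h1, hlam], h2, fun 𝒱 h𝒱 => ?_⟩
  exact LabelAt.pull630 hchart (𝒱' := {V | V = V' ∨ V = V''}) (fun V hV => h𝒱 V hV) hl

end SideSurj

/-! ## The wall -/

section Wall

universe u

variable {R E F F' : Type u} [CommRing R] [IsDomain R] [IsDiscreteValuationRing R]
  [HenselianLocalRing R] [IsAlgClosed (IsLocalRing.ResidueField R)]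
  [Field E] [CharZero E] [Algebra R E] [IsFractionRing R E]
  [Field F] [Algebra E F] [Algebra R F] [IsScalarTower R E F]
  [Field F'] [Algebra E F'] [Algebra R F'] [IsScalarTower R E F']
  {w : R} {q : ℕ} {α β : F' →ₐ[E] F} {x : F} {x' : F'}
  {V₁ V₂ V₃ : ValuationSubring F} {V₁' V₂' : ValuationSubring F'}

/-- The label datum at every closed point of the special fibre of the finite chart, from the
label data at the triple points. -/
theorem labelAt_fin_of_triple630 (ctx : TripleCtx w q α β x x' V₁ V₂ V₃ V₁' V₂')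
    (hw : Irreducible w) (hq : q.Prime) {m : ℕ} (hm : 0 < m) {ζ : R} (hζ : ζ ^ m = 1)
    {u : F} (hdiv : DivisibleDiv E m u)
    (hu₁ : u - 1 ∈ V₁.nonunits) (hu₂ : u - 1 ∈ V₂.nonunits) (hu₃ : u - 1 ∈ V₃.nonunits)
    (κ : ValuationSubring F → ℕ)
    (htriple : ∀ n : Ideal (chart R ({x} : Set F)), n.IsMaximal →
      algebraMap R (chart R ({x} : Set F)) w ∈ n →
      PassThrough (chart R ({x} : Set F)) n V₁ → PassThrough (chart R ({x} : Set F)) n V₂ →
      PassThrough (chart R ({x} : Set F)) n V₃ →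
      LabelAt (chart R ({x} : Set F)) n {V | V = V₁ ∨ V = V₂ ∨ V = V₃} m u ζ κ)
    (n : Ideal (chart R ({x} : Set F))) (hn : n.IsMaximal)
    (hwn : algebraMap R (chart R ({x} : Set F)) w ∈ n) :
    LabelAt (chart R ({x} : Set F)) n {V | V = V₁ ∨ V = V₂ ∨ V = V₃} m u ζ κ := by
  haveI := hn
  have h𝔪n := maximalIdeal_map_mem hw hwn
  by_cases htr : (PassThrough (chart R ({x} : Set F)) n V₁ ∧
      PassThrough (chart R ({x} : Set F)) n V₂) ∨
      (PassThrough (chart R ({x} : Set F)) n V₁ ∧ PassThrough (chart R ({x} : Set F)) n V₃) ∨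
      (PassThrough (chart R ({x} : Set F)) n V₂ ∧ PassThrough (chart R ({x} : Set F)) n V₃)
  · obtain ⟨h1, h2, h3⟩ := ctx.incidence n hn htr
    exact htriple n hn hwn h1 h2 h3
  · rw [not_or, not_or] at htr
    have hB₁ : ChartLe (chart R ({x} : Set F)) V₁ := chartLe_chart ctx.base₁
      (fun s hs => by rw [Set.mem_singleton_iff.1 hs]; exact ctx.x_unit₁.2.1)
    have hB₂ : ChartLe (chart R ({x} : Set F)) V₂ := chartLe_chart ctx.base₂
      (fun s hs => by rw [Set.mem_singleton_iff.1 hs]; exact ctx.x_unit₂.2.1)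
    have hB₃ : ChartLe (chart R ({x} : Set F)) V₃ := chartLe_chart ctx.base₃
      (fun s hs => by rw [Set.mem_singleton_iff.1 hs]; exact ctx.x_unit₃.2.1)
    obtain ⟨d, -, a₀, s₀, ha₀, hs₀, hpure⟩ :=
      Fermat.Agent.S36.H987.ctx_pure_fin hw hq ctx n hn hwn hm hdiv (unit_of_split hu₁)
        (unit_of_split hu₂) (unit_of_split hu₃)
    have h := labelAt_of_le_one (rat_chart x n hn h𝔪n) hB₁ hB₂ hB₃ hm
      (normalAlong_of_monic ctx.normal_f₁ hm) (normalAlong_of_monic ctx.normal_f₂ hm)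
      (normalAlong_of_monic ctx.normal_f₃ hm) hζ κ htr.1 htr.2.1 htr.2.2 hu₁ hu₂ hu₃ ha₀ hs₀
      hpure 1
    rwa [pow_one] at h

/-- The label datum at every closed point of the special fibre of the chart at infinity, from the
label data on the finite chart. -/
theorem labelAt_inf_of_fin630 (ctx : TripleCtx w q α β x x' V₁ V₂ V₃ V₁' V₂')
    (hw : Irreducible w) (hq : q.Prime) {m : ℕ} (hm : 0 < m) {ζ : R} (hζ : ζ ^ m = 1)
    {u : F} (hdiv : DivisibleDiv E m u)
    (hu₁ : u - 1 ∈ V₁.nonunits) (hu₂ : u - 1 ∈ V₂.nonunits) (hu₃ : u - 1 ∈ V₃.nonunits)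
    (κ : ValuationSubring F → ℕ)
    (hfin : ∀ n : Ideal (chart R ({x} : Set F)), n.IsMaximal →
      algebraMap R (chart R ({x} : Set F)) w ∈ n →
      LabelAt (chart R ({x} : Set F)) n {V | V = V₁ ∨ V = V₂ ∨ V = V₃} m u ζ κ)
    (n' : Ideal (chart R ({x⁻¹} : Set F))) (hn' : n'.IsMaximal)
    (hwn' : algebraMap R (chart R ({x⁻¹} : Set F)) w ∈ n') :
    LabelAt (chart R ({x⁻¹} : Set F)) n' {V | V = V₁ ∨ V = V₂ ∨ V = V₃} m u ζ κ := by
  haveI := hn'
  have hn'p : n'.IsPrime := hn'.isPrime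
  have h𝔪n' := maximalIdeal_map_mem hw hwn'
  have hrat' := rat_chart x⁻¹ n' hn' h𝔪n'
  have hx0 : x ≠ 0 := ctx.x_unit₁.1
  have hyB' : x⁻¹ ∈ chart R ({x⁻¹} : Set F) := Fermat.Agent.S18.H138.mem_chart_of_mem rfl
  by_cases hy : (⟨x⁻¹, hyB'⟩ : chart R ({x⁻¹} : Set F)) ∈ n'
  · -- a cusp: at most one sheet
    obtain ⟨h12, h13, h23⟩ := ctx.cusp_single n' hn' hwn' hy
    obtain ⟨d, -, a₀, s₀, ha₀, hs₀, hpure⟩ :=
      Fermat.Agent.S36.H987.ctx_pure_cusp hw hq ctx n' hn' hwn' hy hm hdiv (unit_of_split hu₁)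
        (unit_of_split hu₂) (unit_of_split hu₃)
    have hB₁ : ChartLe (chart R ({x⁻¹} : Set F)) V₁ := chartLe_chart ctx.base₁
      (fun s hs => by rw [Set.mem_singleton_iff.1 hs]; exact ctx.x_unit₁.2.2)
    have hB₂ : ChartLe (chart R ({x⁻¹} : Set F)) V₂ := chartLe_chart ctx.base₂
      (fun s hs => by rw [Set.mem_singleton_iff.1 hs]; exact ctx.x_unit₂.2.2)
    have hB₃ : ChartLe (chart R ({x⁻¹} : Set F)) V₃ := chartLe_chart ctx.base₃
      (fun s hs => by rw [Set.mem_singleton_iff.1 hs]; exact ctx.x_unit₃.2.2)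
    have h := labelAt_of_le_one hrat' hB₁ hB₂ hB₃ hm
      (normalAlong_of_monic ctx.normal_i₁ hm) (normalAlong_of_monic ctx.normal_i₂ hm)
      (normalAlong_of_monic ctx.normal_i₃ hm) hζ κ h12 h13 h23 hu₁ hu₂ hu₃ ha₀ hs₀ hpure 1
    rwa [pow_one] at h
  · -- off the cusps: change of chart
    have hclear : ∀ b : chart R ({x} : Set F),
        ∃ k : ℕ, x⁻¹ ^ k * (b : F) ∈ chart R ({x⁻¹} : Set F) :=
      fun b => Fermat.Agent.S18.H138.exists_inv_pow_mul_mem_chart hx0 b.2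
    have hnmax : (backIdeal (chart R ({x} : Set F)) n' x⁻¹ hyB' hclear).IsMaximal :=
      backIdeal_isMaximal hyB' hclear hy h𝔪n' hrat'
    have hwn : algebraMap R (chart R ({x} : Set F)) w
        ∈ backIdeal (chart R ({x} : Set F)) n' x⁻¹ hyB' hclear :=
      (algebraMap_mem_backIdeal_iff hyB' hclear hy w).2 hwn'
    refine LabelAt.of_back hyB' hclear hy ?_ (hfin _ hnmax hwn)
    rintro V (rfl | rfl | rfl)
    · exact ctx.x_unit₁.2.2
    · exact ctx.x_unit₂.2.2
    · exact ctx.x_unit₃.2.2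

/-- **The wall with the zero colouring**: `u ≡ 1` on `V₁, V₂, V₃`, `m ∣ div u`, and trivial labels
at the triple points ⟹ `u` is an `m`-th power. -/
theorem exists_pow_of_triple_labels630 (ctx : TripleCtx w q α β x x' V₁ V₂ V₃ V₁' V₂')
    (hw : Irreducible w) (hq : q.Prime) (hqR : (q : R) ∈ IsLocalRing.maximalIdeal R)
    {m : ℕ} (hm : 0 < m) (hqm : ¬ q ∣ m) {ζ : R} (hζ : IsPrimitiveRoot ζ m)
    {u : F} (hdiv : DivisibleDiv E m u)
    (hu₁ : u - 1 ∈ V₁.nonunits) (hu₂ : u - 1 ∈ V₂.nonunits) (hu₃ : u - 1 ∈ V₃.nonunits)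
    (κ : ValuationSubring F → ℕ)
    (htriple : ∀ n : Ideal (chart R ({x} : Set F)), n.IsMaximal →
      algebraMap R (chart R ({x} : Set F)) w ∈ n →
      PassThrough (chart R ({x} : Set F)) n V₁ → PassThrough (chart R ({x} : Set F)) n V₂ →
      PassThrough (chart R ({x} : Set F)) n V₃ →
      LabelAt (chart R ({x} : Set F)) n {V | V = V₁ ∨ V = V₂ ∨ V = V₃} m u ζ κ) :
    ∃ h : F, h ≠ 0 ∧ h ^ m = u := by
  have hζ1 : ζ ^ m = 1 := hζ.pow_eq_one
  have hu0 : u ≠ 0 := (unit_of_split hu₁).1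
  have hfin := labelAt_fin_of_triple630 ctx hw hq hm hζ1 hdiv hu₁ hu₂ hu₃ κ htriple
  have hinf := labelAt_inf_of_fin630 ctx hw hq hm hζ1 hdiv hu₁ hu₂ hu₃ κ hfin
  haveI := ctx.dvr₁
  have hdisc : ∀ g : F, ∃ k : ℕ, g * algebraMap R F w ^ k ∈ V₁ :=
    Fermat.Agent.S36.Alg3.exists_mul_pow_mem_of_unif V₁ ctx.unif₁.1 ctx.unif₁.2.1 ctx.unif₁.2.2
  obtain ⟨h, hh⟩ := Fermat.Agent.S36.H193.exists_pow_eq_of_three E w hw q hq hqR ctx.hx ctx.hfin
    hm hqm hζ (f := u) hu0 V₁ V₂ V₃ (Fermat.Agent.S36.H987.ctx_sheets hw hq ctx)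
    hu₁ hu₂ hu₃ ctx.base₁ ctx.unif₁.2.1 ctx.unif₁.2.2 hdisc κ
    (fun n hn hwn => by
      haveI := hn
      refine basePureValuesAt_of_labelAt ?_ hm hζ1 (hfin n hn hwn)
      rintro V (rfl | rfl | rfl)
      · exact chartLe_chart ctx.base₁
          (fun s hs => by rw [Set.mem_singleton_iff.1 hs]; exact ctx.x_unit₁.2.1)
      · exact chartLe_chart ctx.base₂
          (fun s hs => by rw [Set.mem_singleton_iff.1 hs]; exact ctx.x_unit₂.2.1)
      · exact chartLe_chart ctx.base₃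
          (fun s hs => by rw [Set.mem_singleton_iff.1 hs]; exact ctx.x_unit₃.2.1))
    (fun n hn hwn => by
      haveI := hn
      refine basePureValuesAt_of_labelAt ?_ hm hζ1 (hinf n hn hwn)
      rintro V (rfl | rfl | rfl)
      · exact chartLe_chart ctx.base₁
          (fun s hs => by rw [Set.mem_singleton_iff.1 hs]; exact ctx.x_unit₁.2.2)
      · exact chartLe_chart ctx.base₂
          (fun s hs => by rw [Set.mem_singleton_iff.1 hs]; exact ctx.x_unit₂.2.2)
      · exact chartLe_chart ctx.base₃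
          (fun s hs => by rw [Set.mem_singleton_iff.1 hs]; exact ctx.x_unit₃.2.2))
  refine ⟨h, ?_, hh⟩
  rintro rfl
  rw [zero_pow hm.ne'] at hh
  exact hu0 hh.symm

/-- **THE TORIC WALL at level `q² M'`.**  Given LAB1-SURJ (E-form) at level `q M'`, every `u ≡ 1`
on `V₁, V₂, V₃` with `m ∣ div u` is old up to `m`-th powers: `u * α g * β g' = h ^ m` with
`g, g'` of level `q M'`, `m ∣ div g, g'`, `g, g' ≡ 1` on `V₁'`, `V₂'`. -/
theorem toricWall630 (ctx : TripleCtx w q α β x x' V₁ V₂ V₃ V₁' V₂')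
    (hw : Irreducible w) (hq : q.Prime) (hqR : (q : R) ∈ IsLocalRing.maximalIdeal R)
    {m : ℕ} (hm : 0 < m) (hqm : ¬ q ∣ m) {ζ : R} (hζ : IsPrimitiveRoot ζ m)
    (hLab : Lab1SurjE E w x' V₁' V₂' m ζ)
    {u : F} (hdiv : DivisibleDiv E m u)
    (hu₁ : u - 1 ∈ V₁.nonunits) (hu₂ : u - 1 ∈ V₂.nonunits) (hu₃ : u - 1 ∈ V₃.nonunits) :
    ∃ (g g' : F') (h : F), g ≠ 0 ∧ g' ≠ 0 ∧ DivisibleDiv E m g ∧ DivisibleDiv E m g' ∧
      g - 1 ∈ V₁'.nonunits ∧ g - 1 ∈ V₂'.nonunits ∧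
      g' - 1 ∈ V₁'.nonunits ∧ g' - 1 ∈ V₂'.nonunits ∧ h ≠ 0 ∧
      u * α g * β g' = h ^ m := by
  classical
  have hζ1 : ζ ^ m = 1 := hζ.pow_eq_one
  have hB₁ : ChartLe (chart R ({x} : Set F)) V₁ := chartLe_chart ctx.base₁
    (fun s hs => by rw [Set.mem_singleton_iff.1 hs]; exact ctx.x_unit₁.2.1)
  have hB₂ : ChartLe (chart R ({x} : Set F)) V₂ := chartLe_chart ctx.base₂
    (fun s hs => by rw [Set.mem_singleton_iff.1 hs]; exact ctx.x_unit₂.2.1)
  have hB₃ : ChartLe (chart R ({x} : Set F)) V₃ := chartLe_chart ctx.base₃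
    (fun s hs => by rw [Set.mem_singleton_iff.1 hs]; exact ctx.x_unit₃.2.1)
  have hB : ∀ V ∈ ({V | V = V₁ ∨ V = V₂ ∨ V = V₃} : Set (ValuationSubring F)),
      ChartLe (chart R ({x} : Set F)) V := by
    rintro V (rfl | rfl | rfl)
    · exact hB₁
    · exact hB₂
    · exact hB₃
  -- the triple points
  let P : Ideal (chart R ({x} : Set F)) → Prop := fun n =>
    n.IsMaximal ∧ algebraMap R (chart R ({x} : Set F)) w ∈ n ∧
      PassThrough (chart R ({x} : Set F)) n V₁ ∧ PassThrough (chart R ({x} : Set F)) n V₂ ∧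
      PassThrough (chart R ({x} : Set F)) n V₃
  -- the labels of `u`
  have hlab : ∀ n, P n → ∃ a₁ a₂ : ℕ,
      LabelAt (chart R ({x} : Set F)) n {V | V = V₁ ∨ V = V₂ ∨ V = V₃} m u ζ
        (kap3 V₁ V₂ a₁ a₂ 0) := by
    rintro n ⟨hn, hwn, h1, h2, h3⟩
    haveI := hn
    have h𝔪n := maximalIdeal_map_mem hw hwn
    obtain ⟨d, -, a₀, s₀, ha₀, hs₀, hpure⟩ :=
      Fermat.Agent.S36.H987.ctx_pure_fin hw hq ctx n hn hwn hm hdiv (unit_of_split hu₁)
        (unit_of_split hu₂) (unit_of_split hu₃)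
    exact labelAt_exists3 (rat_chart x n hn h𝔪n) h𝔪n ctx.ne₁₂ ctx.ne₁₃ ctx.ne₂₃ hB₁ hB₂ hB₃
      h1 h2 h3 hm (normalAlong_of_monic ctx.normal_f₁ hm)
      (normalAlong_of_monic ctx.normal_f₂ hm) (normalAlong_of_monic ctx.normal_f₃ hm) hζ
      hu₁ hu₂ hu₃ ha₀ hs₀ hpure
  choose! A₁ A₂ hA using hlab
  -- the side `α`
  obtain ⟨g, hg0, hgdiv, hg1, hg2, hglab⟩ :
      ∃ g : F', g ≠ 0 ∧ DivisibleDiv E m g ∧ g - 1 ∈ V₁'.nonunits ∧ g - 1 ∈ V₂'.nonunits ∧
        ∀ n, P n → ∃ κ : ValuationSubring F → ℕ, ζ ^ κ V₁ = ζ ^ ((m - 1) * A₂ n) ∧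
          ζ ^ κ V₂ = ζ ^ ((m - 1) * A₂ n) ∧ ζ ^ κ V₃ = 1 ∧
          LabelAt (chart R ({x} : Set F)) n {V | V = V₁ ∨ V = V₂ ∨ V = V₃} m (α g) ζ κ := by
    letI := algebraAlong α
    haveI : IsScalarTower R F' F := isScalarTower_alongR α
    have e₁ : V₁.comap (algebraMap F' F) = V₁' := ctx.comap_α₁
    have e₂ : V₂.comap (algebraMap F' F) = V₁' := ctx.comap_α₂
    have e₃ : V₃.comap (algebraMap F' F) = V₂' := ctx.comap_α₃
    obtain ⟨g, hg0, hgdiv, hg1, hg2, hglab⟩ := exists_pull_label630 (E := E) ctx.chart_α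
      ctx.int_α hLab P (fun n hn => hn.1) (fun n hn => hn.2.1)
      (fun n n' hn hn' h => ctx.unique_α n n' hn.1 hn'.1 ⟨hn.2.2.1, hn.2.2.2.1, hn.2.2.2.2⟩
        (fun b' hb' hb => by
          have h1 : (⟨b', hb'⟩ : chart R ({x'} : Set F')) ∈ n.comap (chartIncl ctx.chart_α) := hb
          rw [h] at h1
          exact h1))
      (fun n hn => by
        have h := PassThrough.pull630 (x' := x') ctx.chart_α hn.2.2.1
        rw [e₁] at h
        exact h)
      (fun n hn => by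
        have h := PassThrough.pull630 (x' := x') ctx.chart_α hn.2.2.2.2
        rw [e₃] at h
        exact h)
      (fun n => (m - 1) * A₂ n)
    refine ⟨g, hg0, hgdiv, hg1, hg2, fun n hn => ?_⟩
    obtain ⟨κ', h1, h2, hl⟩ := hglab n hn
    refine ⟨fun V => κ' (V.comap (algebraMap F' F)), ?_, ?_, ?_, hl _ ?_⟩
    · show ζ ^ κ' (V₁.comap (algebraMap F' F)) = _
      rw [e₁, h1]
    · show ζ ^ κ' (V₂.comap (algebraMap F' F)) = _
      rw [e₂, h1]
    · show ζ ^ κ' (V₃.comap (algebraMap F' F)) = _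
      rw [e₃, h2]
    · rintro V (rfl | rfl | rfl)
      · exact Or.inl e₁
      · exact Or.inl e₂
      · exact Or.inr e₃
  -- the side `β`
  obtain ⟨g', hg'0, hg'div, hg'1, hg'2, hg'lab⟩ :
      ∃ g' : F', g' ≠ 0 ∧ DivisibleDiv E m g' ∧ g' - 1 ∈ V₁'.nonunits ∧
        g' - 1 ∈ V₂'.nonunits ∧
        ∀ n, P n → ∃ κ : ValuationSubring F → ℕ,
          ζ ^ κ V₁ = ζ ^ (A₂ n + (m - 1) * A₁ n) ∧
          ζ ^ κ V₂ = 1 ∧ ζ ^ κ V₃ = 1 ∧
          LabelAt (chart R ({x} : Set F)) n {V | V = V₁ ∨ V = V₂ ∨ V = V₃} m (β g') ζ κ := by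
    letI := algebraAlong β
    haveI : IsScalarTower R F' F := isScalarTower_alongR β
    have e₁ : V₁.comap (algebraMap F' F) = V₁' := ctx.comap_β₁
    have e₂ : V₂.comap (algebraMap F' F) = V₂' := ctx.comap_β₂
    have e₃ : V₃.comap (algebraMap F' F) = V₂' := ctx.comap_β₃
    obtain ⟨g', hg0, hgdiv, hg1, hg2, hglab⟩ := exists_pull_label630 (E := E) ctx.chart_β
      ctx.int_β hLab P (fun n hn => hn.1) (fun n hn => hn.2.1)
      (fun n n' hn hn' h => ctx.unique_β n n' hn.1 hn'.1 ⟨hn.2.2.1, hn.2.2.2.1, hn.2.2.2.2⟩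
        (fun b' hb' hb => by
          have h1 : (⟨b', hb'⟩ : chart R ({x'} : Set F')) ∈ n.comap (chartIncl ctx.chart_β) := hb
          rw [h] at h1
          exact h1))
      (fun n hn => by
        have h := PassThrough.pull630 (x' := x') ctx.chart_β hn.2.2.1
        rw [e₁] at h
        exact h)
      (fun n hn => by
        have h := PassThrough.pull630 (x' := x') ctx.chart_β hn.2.2.2.2
        rw [e₃] at h
        exact h)
      (fun n => A₂ n + (m - 1) * A₁ n)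
    refine ⟨g', hg0, hgdiv, hg1, hg2, fun n hn => ?_⟩
    obtain ⟨κ', h1, h2, hl⟩ := hglab n hn
    refine ⟨fun V => κ' (V.comap (algebraMap F' F)), ?_, ?_, ?_, hl _ ?_⟩
    · show ζ ^ κ' (V₁.comap (algebraMap F' F)) = _
      rw [e₁, h1]
    · show ζ ^ κ' (V₂.comap (algebraMap F' F)) = _
      rw [e₂, h2]
    · show ζ ^ κ' (V₃.comap (algebraMap F' F)) = _
      rw [e₃, h2]
    · rintro V (rfl | rfl | rfl)
      · exact Or.inl e₁
      · exact Or.inr e₂
      · exact Or.inr e₃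
  -- congruences to `1` of the pull-backs
  have hα₁ : α g - 1 ∈ V₁.nonunits :=
    sub_one_map630 (α : F' →+* F) V₁ (by rw [ctx.comap_α₁]; exact hg1)
  have hα₂ : α g - 1 ∈ V₂.nonunits :=
    sub_one_map630 (α : F' →+* F) V₂ (by rw [ctx.comap_α₂]; exact hg1)
  have hα₃ : α g - 1 ∈ V₃.nonunits :=
    sub_one_map630 (α : F' →+* F) V₃ (by rw [ctx.comap_α₃]; exact hg2)
  have hβ₁ : β g' - 1 ∈ V₁.nonunits :=
    sub_one_map630 (β : F' →+* F) V₁ (by rw [ctx.comap_β₁]; exact hg'1)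
  have hβ₂ : β g' - 1 ∈ V₂.nonunits :=
    sub_one_map630 (β : F' →+* F) V₂ (by rw [ctx.comap_β₂]; exact hg'2)
  have hβ₃ : β g' - 1 ∈ V₃.nonunits :=
    sub_one_map630 (β : F' →+* F) V₃ (by rw [ctx.comap_β₃]; exact hg'2)
  have hv₁ : u * α g * β g' - 1 ∈ V₁.nonunits := sub_one_mul630 V₁ (sub_one_mul630 V₁ hu₁ hα₁) hβ₁
  have hv₂ : u * α g * β g' - 1 ∈ V₂.nonunits := sub_one_mul630 V₂ (sub_one_mul630 V₂ hu₂ hα₂) hβ₂
  have hv₃ : u * α g * β g' - 1 ∈ V₃.nonunits := sub_one_mul630 V₃ (sub_one_mul630 V₃ hu₃ hα₃) hβ₃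
  have hvdiv : DivisibleDiv E m (u * α g * β g') :=
    divisibleDiv_mul630 (divisibleDiv_mul630 hdiv (divisibleDiv_map630 α hg0 hgdiv))
      (divisibleDiv_map630 β hg'0 hg'div)
  -- the labels of the product at the triple points are trivial
  have htriple : ∀ n : Ideal (chart R ({x} : Set F)), n.IsMaximal →
      algebraMap R (chart R ({x} : Set F)) w ∈ n →
      PassThrough (chart R ({x} : Set F)) n V₁ → PassThrough (chart R ({x} : Set F)) n V₂ →
      PassThrough (chart R ({x} : Set F)) n V₃ →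
      LabelAt (chart R ({x} : Set F)) n {V | V = V₁ ∨ V = V₂ ∨ V = V₃} m (u * α g * β g') ζ
        (fun _ => 0) := by
    intro n hn hwn h1 h2 h3
    haveI := hn
    haveI : n.IsPrime := hn.isPrime
    have hPn : P n := ⟨hn, hwn, h1, h2, h3⟩
    obtain ⟨κα, a1, a2, a3, hlα⟩ := hglab n hPn
    obtain ⟨κβ, b1, b2, b3, hlβ⟩ := hg'lab n hPn
    have hl := LabelAt.mul630 hB (LabelAt.mul630 hB (hA n hPn) hlα) hlβ
    refine LabelAt.congr630 hl ?_
    rintro V (rfl | rfl | rfl)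
    · show ζ ^ (kap3 V V₂ (A₁ n) (A₂ n) 0 V + κα V + κβ V) = ζ ^ 0
      rw [kap3_one, pow_add, pow_add, a1, b1, pow_add, pow_zero]
      have e1 := zeta_cancel630 hm hζ1 (A₁ n)
      have e2 := zeta_cancel630 hm hζ1 (A₂ n)
      calc ζ ^ A₁ n * ζ ^ ((m - 1) * A₂ n) * (ζ ^ A₂ n * ζ ^ ((m - 1) * A₁ n))
          = (ζ ^ A₁ n * ζ ^ ((m - 1) * A₁ n)) * (ζ ^ A₂ n * ζ ^ ((m - 1) * A₂ n)) := by ring
        _ = 1 := by rw [e1, e2, one_mul]
    · show ζ ^ (kap3 V₁ V (A₁ n) (A₂ n) 0 V + κα V + κβ V) = ζ ^ 0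
      rw [kap3_two ctx.ne₁₂, pow_add, pow_add, a2, b2, pow_zero, mul_one]
      exact zeta_cancel630 hm hζ1 (A₂ n)
    · show ζ ^ (kap3 V₁ V₂ (A₁ n) (A₂ n) 0 V + κα V + κβ V) = ζ ^ 0
      rw [kap3_three ctx.ne₁₃ ctx.ne₂₃, pow_add, pow_add, a3, b3, pow_zero, mul_one, mul_one]
  obtain ⟨h, hh0, hh⟩ := exists_pow_of_triple_labels630 ctx hw hq hqR hm hqm hζ hvdiv hv₁ hv₂ hv₃
    (fun _ => 0) htriple
  exact ⟨g, g', h, hg0, hg'0, hgdiv, hg'div, hg1, hg2, hg'1, hg'2, hh0, hh.symm⟩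

end Wall

end Fermat.Agent.S59.LoSqC.H630
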