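import Fermat.Agent.S59.LoSqC.H630.ToricWall

/-!
# S59 / cell (C) LO-SQ, leaf W-SUB, TORIC half: adapters (helper630)

* `toricWallE630` : the toric wall in the shape of the body of `H987.ToricWallE`
  (`u = α g * β g' * h ^ m`);
* `toricFromBelow630` : the toric wall in the shape of the body of `LoSqC.FromBelow`
  (`u = c * α g * β g' * h ^ m`, `g, g', h ≠ 0`);
* `labelAt_of_pair630` : a label `c` for the ordered pair of sheets `(V, V')` in the sense of
  the body of `H193.IsLabelAt` (values `η`, `η'` of one purity datum along `V`, `V'`,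
  `η' ≡ η ζ ^ c`) gives a label datum `H630.LabelAt` with colouring `V ↦ c`, `V' ↦ 0`;
* `lab1SurjE_of_pair630` : `Lab1SurjE` from surjectivity of the labels in the pair form.
-/

set_option autoImplicit false
set_option linter.unusedSectionVars false
set_option linter.unusedVariables false
set_option linter.style.haveILetI false
set_option synthInstance.maxHeartbeats 400000
set_option maxHeartbeats 1600000

namespace Fermat.Agent.S59.LoSqC.H630

open Fermat.Agent.S36.H630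
open Fermat.Agent.S18.H138 (chart mem_chart)
open Fermat.Agent.S36.Eng (TripleCtx)
open Fermat.Agent.A2 (DivisibleDiv)
open AlgebraicCurve

section Div

variable {E F : Type*} [Field E] [Field F] [Algebra E F]

theorem divisibleDiv_inv630 {m : ℕ} {f : F} (hf : DivisibleDiv E m f) :
    DivisibleDiv E m f⁻¹ := by
  intro V hV hE
  obtain ⟨h₁, u₁, hh₁, hu₁, hu₁', rfl⟩ := hf V hV hE
  refine ⟨h₁⁻¹, u₁⁻¹, inv_ne_zero hh₁, hu₁', ?_, ?_⟩
  · rw [inv_inv]
    exact hu₁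
  · rw [mul_inv, inv_pow]

end Div

section Shapes

universe u

variable {R E F F' : Type u} [CommRing R] [IsDomain R] [IsDiscreteValuationRing R]
  [HenselianLocalRing R] [IsAlgClosed (IsLocalRing.ResidueField R)]
  [Field E] [CharZero E] [Algebra R E] [IsFractionRing R E]
  [Field F] [Algebra E F] [Algebra R F] [IsScalarTower R E F]
  [Field F'] [Algebra E F'] [Algebra R F'] [IsScalarTower R E F']
  {w : R} {q : ℕ} {α β : F' →ₐ[E] F} {x : F} {x' : F'}
  {V₁ V₂ V₃ : ValuationSubring F} {V₁' V₂' : ValuationSubring F'}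

/-- **The toric wall**, shape `u = c * α g * β g' * h ^ m` with everything nonzero
(body of `LoSqC.FromBelow`, `c = 1`), keeping `g, g' ≡ 1` on `V₁'`, `V₂'`. -/
theorem toricFromBelow630 (ctx : TripleCtx w q α β x x' V₁ V₂ V₃ V₁' V₂')
    (hw : Irreducible w) (hq : q.Prime) (hqR : (q : R) ∈ IsLocalRing.maximalIdeal R)
    {m : ℕ} (hm : 0 < m) (hqm : ¬ q ∣ m) {ζ : R} (hζ : IsPrimitiveRoot ζ m)
    (hLab : Lab1SurjE E w x' V₁' V₂' m ζ)
    {u : F} (hdiv : DivisibleDiv E m u)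
    (hu₁ : u - 1 ∈ V₁.nonunits) (hu₂ : u - 1 ∈ V₂.nonunits) (hu₃ : u - 1 ∈ V₃.nonunits) :
    ∃ (c : E) (g g' : F') (h : F), g ≠ 0 ∧ g' ≠ 0 ∧ h ≠ 0 ∧
      DivisibleDiv E m g ∧ DivisibleDiv E m g' ∧
      u = algebraMap E F c * α g * β g' * h ^ m := by
  obtain ⟨g, g', h, hg0, hg'0, hgd, hg'd, -, -, -, -, hh0, hh⟩ :=
    toricWall630 ctx hw hq hqR hm hqm hζ hLab hdiv hu₁ hu₂ hu₃
  refine ⟨1, g⁻¹, g'⁻¹, h, inv_ne_zero hg0, inv_ne_zero hg'0, hh0, divisibleDiv_inv630 hgd,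
    divisibleDiv_inv630 hg'd, ?_⟩
  have hA0 : α g ≠ 0 := (map_ne_zero α).2 hg0
  have hB0 : β g' ≠ 0 := (map_ne_zero β).2 hg'0
  rw [map_one, one_mul, map_inv₀, map_inv₀, ← hh]
  field_simp

/-- **The toric wall**, shape of the body of `H987.ToricWallE`. -/
theorem toricWallE630 (ctx : TripleCtx w q α β x x' V₁ V₂ V₃ V₁' V₂')
    (hw : Irreducible w) (hq : q.Prime) (hqR : (q : R) ∈ IsLocalRing.maximalIdeal R)
    {m : ℕ} (hm : 0 < m) (hqm : ¬ q ∣ m) {ζ : R} (hζ : IsPrimitiveRoot ζ m)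
    (hLab : Lab1SurjE E w x' V₁' V₂' m ζ) :
    ∀ u : F, DivisibleDiv E m u → u - 1 ∈ V₁.nonunits → u - 1 ∈ V₂.nonunits →
      u - 1 ∈ V₃.nonunits →
      ∃ (g g' : F') (h : F), DivisibleDiv E m g ∧ DivisibleDiv E m g' ∧
        u = α g * β g' * h ^ m := by
  intro u hdiv hu₁ hu₂ hu₃
  obtain ⟨g₀, g₀', h₀, hg0, hg'0, hgd₀, hg'd₀, -, -, -, -, hh0, hh₀⟩ :=
    toricWall630 ctx hw hq hqR hm hqm hζ hLab hdiv hu₁ hu₂ hu₃
  refine ⟨g₀⁻¹, g₀'⁻¹, h₀, divisibleDiv_inv630 hgd₀, divisibleDiv_inv630 hg'd₀, ?_⟩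
  have hA0 : α g₀ ≠ 0 := (map_ne_zero α).2 hg0
  have hB0 : β g₀' ≠ 0 := (map_ne_zero β).2 hg'0
  rw [map_inv₀, map_inv₀, ← hh₀]
  field_simp

end Shapes

section Pair

variable {R : Type*} [CommRing R] {F : Type*} [Field F] [Algebra R F]
variable {B : Subalgebra R F} {n : Ideal B}

/-- **From the pair form of a label to the colouring form.**  One purity datum `d` of `u` at `n`
with values `η` along `V` and `η'` along `V'`, `η' ≡ η ζ ^ c` modulo `n` (body of
`H193.IsLabelAt B n V V' m ζ u c`), gives `LabelAt` with the colouring `V ↦ c`, `V' ↦ 0`. -/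
theorem labelAt_of_pair630 [hn : n.IsPrime] {V V' : ValuationSubring F} (hVV' : V ≠ V')
    {m : ℕ} (hm : 0 < m) {ζ : R} (hζ : ζ ^ m = 1) {u : F} {c : ℕ}
    (h : ∃ (d : F) (η η' : R),
      (d ≠ 0 ∧ ∃ a₀ s₀ : B, a₀ ∉ n ∧ s₀ ∉ n ∧ u * d ^ m * (s₀ : F) = a₀) ∧
      algebraMap R B η ∉ n ∧ ValAt B n V d η ∧ ValAt B n V' d η' ∧
      algebraMap R B (η' - η * ζ ^ c) ∈ n) :
    ∃ κ' : ValuationSubring F → ℕ, ζ ^ κ' V = ζ ^ c ∧ ζ ^ κ' V' = 1 ∧
      LabelAt B n {W | W = V ∨ W = V'} m u ζ κ' := by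
  classical
  obtain ⟨d, η, η', ⟨hd, a₀, s₀, ha₀, hs₀, hp⟩, hη, hv, hv', hl⟩ := h
  have hζu : IsUnit ζ := IsUnit.of_pow_eq_one hζ hm.ne'
  have hζc : algebraMap R B (ζ ^ c) ∉ n := by
    intro hmem
    exact hn.ne_top (n.eq_top_of_isUnit_mem hmem ((hζu.pow c).map (algebraMap R B)))
  have hη' : algebraMap R B η' ∉ n := by
    intro hmem
    have h1 : algebraMap R B (η * ζ ^ c) ∈ n := by
      have : algebraMap R B (η * ζ ^ c) = algebraMap R B η' - algebraMap R B (η' - η * ζ ^ c) := by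
        rw [map_sub]
        ring
      rw [this]
      exact n.sub_mem hmem hl
    rw [map_mul] at h1
    rcases hn.mem_or_mem h1 with h2 | h2
    · exact hη h2
    · exact hζc h2
  refine ⟨fun W => if W = V then c else 0, by simp, by simp [hVV'.symm], d, a₀, s₀, η', hd, hs₀,
    hp, hη', ?_⟩
  rintro W (rfl | rfl) hth
  · simp only [if_true]
    refine hv.congr_const ?_
    have e : η - η' * ζ ^ ((m - 1) * c) = -((η' - η * ζ ^ c) * ζ ^ ((m - 1) * c)) := by
      have h1 : ζ ^ c * ζ ^ ((m - 1) * c) = 1 := zeta_cancel630 hm hζ c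
      have : η - η' * ζ ^ ((m - 1) * c)
          = -((η' - η * ζ ^ c) * ζ ^ ((m - 1) * c)) + η * (1 - ζ ^ c * ζ ^ ((m - 1) * c)) := by
        ring
      rw [this, h1, sub_self, mul_zero, add_zero]
    rw [e, map_neg, map_mul]
    exact n.neg_mem (n.mul_mem_right _ hl)
  · simp only [if_neg hVV'.symm, mul_zero, pow_zero, mul_one]
    exact hv'

end Pair

section Surj

variable {R : Type*} [CommRing R] {E : Type*} [Field E] {F' : Type*} [Field F']
  [Algebra R F'] [Algebra E F']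

/-- **`Lab1SurjE` from surjectivity of the labels in the pair form** (`H193.IsLabelAt`). -/
theorem lab1SurjE_of_pair630 {w : R} {x' : F'} {V₁' V₂' : ValuationSubring F'}
    (hne : V₁' ≠ V₂') {m : ℕ} (hm : 0 < m) {ζ : R} (hζ : ζ ^ m = 1)
    (hsurj : ∀ lam : Ideal (chart R ({x'} : Set F')) → ℕ,
      ∃ g : F', g ≠ 0 ∧ DivisibleDiv E m g ∧ g - 1 ∈ V₁'.nonunits ∧ g - 1 ∈ V₂'.nonunits ∧
        ∀ n' : Ideal (chart R ({x'} : Set F')), n'.IsMaximal →
          algebraMap R (chart R ({x'} : Set F')) w ∈ n' →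
          PassThrough (chart R ({x'} : Set F')) n' V₁' →
          PassThrough (chart R ({x'} : Set F')) n' V₂' →
          ∃ (d : F') (η η' : R),
            (d ≠ 0 ∧ ∃ a₀ s₀ : chart R ({x'} : Set F'), a₀ ∉ n' ∧ s₀ ∉ n' ∧
              g * d ^ m * (s₀ : F') = a₀) ∧
            algebraMap R (chart R ({x'} : Set F')) η ∉ n' ∧
            ValAt (chart R ({x'} : Set F')) n' V₁' d η ∧
            ValAt (chart R ({x'} : Set F')) n' V₂' d η' ∧
            algebraMap R (chart R ({x'} : Set F')) (η' - η * ζ ^ lam n') ∈ n') :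
    Lab1SurjE E w x' V₁' V₂' m ζ := by
  intro lam
  obtain ⟨g, hg0, hgd, hg1, hg2, hlab⟩ := hsurj lam
  refine ⟨g, hg0, hgd, hg1, hg2, fun n' hn' hwn' h1 h2 => ?_⟩
  haveI : n'.IsPrime := hn'.isPrime
  exact labelAt_of_pair630 hne hm hζ (hlab n' hn' hwn' h1 h2)

end Surj

end Fermat.Agent.S59.LoSqC.H630
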