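import Fermat.Agent.S36.H630.Final

/-!
# S59 / cell (C) LO-SQ, leaf W-SUB (toric wall), part 1: operations on label data (helper630)

Vocabulary: `S36.H630.ValAt`, `S36.H630.LabelAt` (main).  Elementwise, Mathlib-only arguments.

* `exists_zeta_pow_of_pow_sub`  : `η ^ m ≡ η' ^ m` modulo a prime `𝔪` ⟹ `η ≡ ζ ^ c η'`;
* `valAt_pow_eq_of_pure`        : the value `η` of a purity datum satisfies `η ^ m ≡ a₀ / s₀`;
* `labelAt_exists3`             : **existence of the labels at a triple point** (NO hypothesis on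
  norms): `u ≡ 1` on `V₁, V₂, V₃` + purity at `n` ⟹ `LabelAt … u ζ (kap3 V₁ V₂ a₁ a₂ 0)`;
* `LabelAt.mul630`              : labels are additive in `u`;
* `LabelAt.congr630`            : the label datum only depends on `ζ ^ κ V`.
-/

set_option autoImplicit false
set_option linter.unusedSectionVars false
set_option linter.style.haveILetI false
set_option maxHeartbeats 1600000

namespace Fermat.Agent.S59.LoSqC.H630

open Fermat.Agent.S36.H630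

section Roots

variable {R : Type*} [CommRing R] [IsDomain R]

/-- `η ^ m ≡ η' ^ m` modulo a prime ideal ⟹ `η ≡ ζ ^ c η'` for some `c`. -/
theorem exists_zeta_pow_of_pow_sub (𝔪 : Ideal R) [h𝔪 : 𝔪.IsPrime] {m : ℕ} (hm : 0 < m) {ζ : R}
    (hζ : IsPrimitiveRoot ζ m) {η η' : R} (h : η ^ m - η' ^ m ∈ 𝔪) :
    ∃ c : ℕ, η - ζ ^ c * η' ∈ 𝔪 := by
  classical
  haveI : NeZero m := ⟨hm.ne'⟩
  have h1 : η ^ m - η' ^ m = ∏ ξ ∈ Polynomial.nthRootsFinset m (1 : R), (η - ξ * η') :=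
    hζ.pow_sub_pow_eq_prod_sub_mul η η' hm
  rw [h1] at h
  obtain ⟨ξ, hξ, hmem⟩ := (Ideal.IsPrime.prod_mem_iff (hp := h𝔪)).1 h
  have hξ1 : ξ ^ m = 1 := (Polynomial.mem_nthRootsFinset hm 1).1 hξ
  obtain ⟨c, -, rfl⟩ := hζ.eq_pow_of_pow_eq_one hξ1
  exact ⟨c, hmem⟩

end Roots

section Ops

variable {R : Type*} [CommRing R] {F : Type*} [Field F] [Algebra R F]
variable {B : Subalgebra R F} {n : Ideal B}

/-- The three-valued colouring `V₁ ↦ a₁`, `V₂ ↦ a₂`, everything else `↦ a₃`. -/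
noncomputable def kap3 (V₁ V₂ : ValuationSubring F) (a₁ a₂ a₃ : ℕ) : ValuationSubring F → ℕ :=
  fun V => by
    classical
    exact if V = V₁ then a₁ else if V = V₂ then a₂ else a₃

theorem kap3_one (V₁ V₂ : ValuationSubring F) (a₁ a₂ a₃ : ℕ) : kap3 V₁ V₂ a₁ a₂ a₃ V₁ = a₁ := by
  simp [kap3]

theorem kap3_two {V₁ V₂ : ValuationSubring F} (h : V₁ ≠ V₂) (a₁ a₂ a₃ : ℕ) :
    kap3 V₁ V₂ a₁ a₂ a₃ V₂ = a₂ := by
  simp [kap3, h.symm]

theorem kap3_three {V₁ V₂ V₃ : ValuationSubring F} (h₁ : V₁ ≠ V₃) (h₂ : V₂ ≠ V₃)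
    (a₁ a₂ a₃ : ℕ) : kap3 V₁ V₂ a₁ a₂ a₃ V₃ = a₃ := by
  simp [kap3, h₁.symm, h₂.symm]

/-- The value `η` of a purity datum `u d ^ m s₀ = a₀` along a sheet on which `u ≡ 1` satisfies
`a₀ ≡ η ^ m s₀` modulo `n`. -/
theorem valAt_pow_eq_of_pure [hn : n.IsPrime] {V : ValuationSubring F} (hBV : ChartLe B V)
    (hth : PassThrough B n V) {m : ℕ} {u d : F} (hu : u - 1 ∈ V.nonunits) {a₀ s₀ : B}
    (hs₀ : s₀ ∉ n) (hpure : u * d ^ m * (s₀ : F) = a₀) {η : R} (hval : ValAt B n V d η) :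
    a₀ - algebraMap R B (η ^ m) * s₀ ∈ n := by
  have hdV : d ∈ V := hval.mem hBV hth
  obtain ⟨a, b, hb, hV, hab⟩ := hval.pow hBV hth m
  -- `b a₀ - a s₀` vanishes on `V`
  have h1 : ((b * a₀ - a * s₀ : B) : F) ∈ V.nonunits := by
    have : ((b * a₀ - a * s₀ : B) : F)
        = (s₀ : F) * ((b : F) * d ^ m - a) + (b : F) * (d ^ m * (s₀ : F)) * (u - 1) := by
      push_cast
      rw [← hpure]
      ring
    rw [this]
    exact vnu_add V (vnu_mul_left V hV (hBV s₀))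
      (vnu_mul_left V hu (V.mul_mem _ _ (hBV b) (V.mul_mem _ _ (V.pow_mem hdV m) (hBV s₀))))
  have h2 : b * a₀ - a * s₀ ∈ n := hth _ h1
  have h3 : b * (a₀ - algebraMap R B (η ^ m) * s₀) ∈ n := by
    have : b * (a₀ - algebraMap R B (η ^ m) * s₀)
        = (b * a₀ - a * s₀) + s₀ * (a - algebraMap R B (η ^ m) * b) := by ring
    rw [this]
    exact n.add_mem h2 (n.mul_mem_left _ hab)
  exact (hn.mem_or_mem h3).resolve_left hb

end Ops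

section Exists

variable {R : Type*} [CommRing R] [IsDomain R] [IsLocalRing R]
  {F : Type*} [Field F] [Algebra R F]
variable {B : Subalgebra R F} {n : Ideal B}

/-- a constant in `n` lies in the maximal ideal of `R` -/
theorem mem_maximalIdeal_of_algebraMap_mem (hn : n ≠ ⊤) {r : R} (h : algebraMap R B r ∈ n) :
    r ∈ IsLocalRing.maximalIdeal R := by
  rw [IsLocalRing.mem_maximalIdeal, mem_nonunits_iff]
  intro hu
  exact hn (n.eq_top_of_isUnit_mem h (hu.map (algebraMap R B)))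

/-- **Existence of the labels at a triple point.**  `u ≡ 1` on the three sheets through `n` and a
purity datum at `n` give a label datum with colouring `V₁ ↦ a₁`, `V₂ ↦ a₂`, `V₃ ↦ 0`. -/
theorem labelAt_exists3 [hn : n.IsMaximal]
    (hrat : ∀ c : B, ∃ r : R, c - algebraMap R B r ∈ n)
    (h𝔪n : ∀ r ∈ IsLocalRing.maximalIdeal R, algebraMap R B r ∈ n)
    {V₁ V₂ V₃ : ValuationSubring F} (h₁₂ : V₁ ≠ V₂) (h₁₃ : V₁ ≠ V₃) (h₂₃ : V₂ ≠ V₃)
    (hB₁ : ChartLe B V₁) (hB₂ : ChartLe B V₂) (hB₃ : ChartLe B V₃)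
    (ht₁ : PassThrough B n V₁) (ht₂ : PassThrough B n V₂) (ht₃ : PassThrough B n V₃)
    {m : ℕ} (hm : 0 < m)
    (hn₁ : NormalAlong B V₁ m) (hn₂ : NormalAlong B V₂ m) (hn₃ : NormalAlong B V₃ m)
    {ζ : R} (hζ : IsPrimitiveRoot ζ m)
    {u d : F} (hu₁ : u - 1 ∈ V₁.nonunits) (hu₂ : u - 1 ∈ V₂.nonunits)
    (hu₃ : u - 1 ∈ V₃.nonunits)
    {a₀ s₀ : B} (ha₀ : a₀ ∉ n) (hs₀ : s₀ ∉ n) (hpure : u * d ^ m * (s₀ : F) = a₀) :
    ∃ a₁ a₂ : ℕ, LabelAt B n {V | V = V₁ ∨ V = V₂ ∨ V = V₃} m u ζ (kap3 V₁ V₂ a₁ a₂ 0) := by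
  have hnp : n.IsPrime := hn.isPrime
  have hζ1 : ζ ^ m = 1 := hζ.pow_eq_one
  obtain ⟨η₁, hη₁, hv₁⟩ := exists_valAt_of_pure hrat hB₁ ht₁ hm hn₁ hu₁ ha₀ hs₀ hpure
  obtain ⟨η₂, hη₂, hv₂⟩ := exists_valAt_of_pure hrat hB₂ ht₂ hm hn₂ hu₂ ha₀ hs₀ hpure
  obtain ⟨η₃, hη₃, hv₃⟩ := exists_valAt_of_pure hrat hB₃ ht₃ hm hn₃ hu₃ ha₀ hs₀ hpure
  have e₁ := valAt_pow_eq_of_pure hB₁ ht₁ hu₁ hs₀ hpure hv₁
  have e₂ := valAt_pow_eq_of_pure hB₂ ht₂ hu₂ hs₀ hpure hv₂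
  have e₃ := valAt_pow_eq_of_pure hB₃ ht₃ hu₃ hs₀ hpure hv₃
  -- `η_i ^ m ≡ η₃ ^ m` modulo the maximal ideal of `R`
  have key : ∀ η : R, a₀ - algebraMap R B (η ^ m) * s₀ ∈ n →
      η ^ m - η₃ ^ m ∈ IsLocalRing.maximalIdeal R := by
    intro η e
    apply mem_maximalIdeal_of_algebraMap_mem hnp.ne_top (B := B) (n := n)
    have h3 : algebraMap R B (η ^ m - η₃ ^ m) * s₀ ∈ n := by
      have : algebraMap R B (η ^ m - η₃ ^ m) * s₀
          = (a₀ - algebraMap R B (η₃ ^ m) * s₀) - (a₀ - algebraMap R B (η ^ m) * s₀) := by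
        rw [map_sub]
        ring
      rw [this]
      exact n.sub_mem e₃ e
    exact (hnp.mem_or_mem h3).resolve_right hs₀
  obtain ⟨c₁, hc₁⟩ := exists_zeta_pow_of_pow_sub (IsLocalRing.maximalIdeal R) hm hζ (key η₁ e₁)
  obtain ⟨c₂, hc₂⟩ := exists_zeta_pow_of_pow_sub (IsLocalRing.maximalIdeal R) hm hζ (key η₂ e₂)
  have hd0 : d ≠ 0 := by
    rintro rfl
    exact hv₃.not_nonunits hB₃ ht₃ hη₃ (vnu_zero V₃)
  refine ⟨(m - 1) * c₁, (m - 1) * c₂, d, a₀, s₀, η₃, hd0, hs₀, hpure, hη₃, ?_⟩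
  rintro V (rfl | rfl | rfl) _
  · rw [kap3_one, zeta_pow_sq hm hζ1]
    refine hv₁.congr_const (h𝔪n _ ?_)
    have : η₁ - η₃ * ζ ^ c₁ = η₁ - ζ ^ c₁ * η₃ := by ring
    rw [this]
    exact hc₁
  · rw [kap3_two h₁₂, zeta_pow_sq hm hζ1]
    refine hv₂.congr_const (h𝔪n _ ?_)
    have : η₂ - η₃ * ζ ^ c₂ = η₂ - ζ ^ c₂ * η₃ := by ring
    rw [this]
    exact hc₂
  · rw [kap3_three h₁₃ h₂₃, mul_zero, pow_zero, mul_one]
    exact hv₃

end Exists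

section Mul

variable {R : Type*} [CommRing R] {F : Type*} [Field F] [Algebra R F]
variable {B : Subalgebra R F} {n : Ideal B}

/-- **Labels are additive.** -/
theorem LabelAt.mul630 [hn : n.IsPrime] {𝒱 : Set (ValuationSubring F)}
    (hB : ∀ V ∈ 𝒱, ChartLe B V) {m : ℕ} {u u' : F} {ζ : R}
    {κ κ' : ValuationSubring F → ℕ}
    (h : LabelAt B n 𝒱 m u ζ κ) (h' : LabelAt B n 𝒱 m u' ζ κ') :
    LabelAt B n 𝒱 m (u * u') ζ (fun V => κ V + κ' V) := by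
  obtain ⟨d, a₀, s₀, η₀, hd, hs₀, hpure, hη₀, hval⟩ := h
  obtain ⟨d', a₀', s₀', η₀', hd', hs₀', hpure', hη₀', hval'⟩ := h'
  refine ⟨d * d', a₀ * a₀', s₀ * s₀', η₀ * η₀', mul_ne_zero hd hd', ?_, ?_, ?_, ?_⟩
  · intro hmem
    rcases hn.mem_or_mem hmem with h5 | h5
    · exact hs₀ h5
    · exact hs₀' h5
  · push_cast
    rw [← hpure, ← hpure']
    ring
  · rw [map_mul]
    intro hmem
    rcases hn.mem_or_mem hmem with h5 | h5
    · exact hη₀ h5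
    · exact hη₀' h5
  · intro V hV hth
    have h1 := (hval V hV hth).mul (hB V hV) hth (hval' V hV hth)
    have : η₀ * ζ ^ ((m - 1) * κ V) * (η₀' * ζ ^ ((m - 1) * κ' V))
        = η₀ * η₀' * ζ ^ ((m - 1) * (κ V + κ' V)) := by
      rw [mul_add, pow_add]
      ring
    rw [this] at h1
    exact h1

/-- The label datum only depends on the powers `ζ ^ κ V`. -/
theorem LabelAt.congr630 {𝒱 : Set (ValuationSubring F)} {m : ℕ} {u : F} {ζ : R}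
    {κ κ' : ValuationSubring F → ℕ} (h : LabelAt B n 𝒱 m u ζ κ)
    (hκ : ∀ V ∈ 𝒱, ζ ^ κ V = ζ ^ κ' V) : LabelAt B n 𝒱 m u ζ κ' := by
  obtain ⟨d, a₀, s₀, η₀, hd, hs₀, hpure, hη₀, hval⟩ := h
  refine ⟨d, a₀, s₀, η₀, hd, hs₀, hpure, hη₀, fun V hV hth => ?_⟩
  have h1 := hval V hV hth
  rw [mul_comm (m - 1) (κ V), pow_mul, hκ V hV, ← pow_mul, mul_comm (κ' V) (m - 1)] at h1
  exact h1

end Mul

end Fermat.Agent.S59.LoSqC.H630
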