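import Fermat.Agent.S59.LoSqC.H630.LabOps

/-!
# S59 / cell (C) LO-SQ, leaf W-SUB (toric wall), part 2: pull-back of label data (helper630)

`F'` (level `q M'`) inside `F` (level `q² M'`) via `algebraMap F' F` (`= α` or `β`, instance
`S36.H630.algebraAlong`); charts `A = chart R {x'}`, `B = chart R {x}`.

* `ValAt.pull630`   : a value along `V.comap` at `n.comap` is a value along `V` at `n`;
* `LabelAt.pull630` : **PULL-LAB** — the label datum of `g` at the point below gives the label
  datum of the pull-back of `g` at `n`, with colouring `V ↦ κ' (V.comap)`.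
-/

set_option autoImplicit false
set_option linter.unusedSectionVars false
set_option linter.style.haveILetI false
set_option maxHeartbeats 1600000

namespace Fermat.Agent.S59.LoSqC.H630

open Fermat.Agent.S36.H630
open Fermat.Agent.S18.H138 (chart mem_chart)

section Pull

variable {R : Type*} [CommRing R] [IsLocalRing R]
variable {F' : Type*} [Field F'] [Algebra R F']
variable {F : Type*} [Field F] [Algebra R F] [Algebra F' F] [IsScalarTower R F' F]
variable {x : F} {x' : F'}
  (hchart : ∀ b ∈ chart R ({x'} : Set F'), algebraMap F' F b ∈ chart R ({x} : Set F))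

theorem chartIncl_coe (a : chart R ({x'} : Set F')) :
    ((chartIncl hchart a : chart R ({x} : Set F)) : F) = algebraMap F' F (a : F') := rfl

theorem chartIncl_algebraMap (r : R) :
    chartIncl hchart (algebraMap R (chart R ({x'} : Set F')) r)
      = algebraMap R (chart R ({x} : Set F)) r := by
  apply Subtype.ext
  show algebraMap F' F (algebraMap R F' r) = algebraMap R F r
  rw [← IsScalarTower.algebraMap_apply]

/-- the sheet below passes through the point below -/
theorem PassThrough.pull630 {n : Ideal (chart R ({x} : Set F))} {V : ValuationSubring F}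
    (hth : PassThrough (chart R ({x} : Set F)) n V) :
    PassThrough (chart R ({x'} : Set F')) (n.comap (chartIncl hchart))
      (V.comap (algebraMap F' F)) := by
  intro c hc
  rw [mem_nonunits_comap_iff] at hc
  exact hth (chartIncl hchart c) hc

include hchart in
/-- the chart below lies in the sheet below -/
theorem ChartLe.pull630 {V : ValuationSubring F} (hBV : ChartLe (chart R ({x} : Set F)) V) :
    ChartLe (chart R ({x'} : Set F')) (V.comap (algebraMap F' F)) := by
  intro a
  rw [ValuationSubring.mem_comap]
  exact hBV (chartIncl hchart a)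

/-- A value along the sheet below at the point below is a value along `V` at `n`. -/
theorem ValAt.pull630 {n : Ideal (chart R ({x} : Set F))} {V : ValuationSubring F}
    {d : F'} {η : R}
    (h : ValAt (chart R ({x'} : Set F')) (n.comap (chartIncl hchart))
      (V.comap (algebraMap F' F)) d η) :
    ValAt (chart R ({x} : Set F)) n V (algebraMap F' F d) η := by
  obtain ⟨a, b, hb, hV, hab⟩ := h
  refine ⟨chartIncl hchart a, chartIncl hchart b, hb, ?_, ?_⟩
  · rw [mem_nonunits_comap_iff] at hV
    rw [chartIncl_coe, chartIncl_coe, ← map_mul, ← map_sub]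
    exact hV
  · have h1 : chartIncl hchart (a - algebraMap R (chart R ({x'} : Set F')) η * b) ∈ n := hab
    rw [map_sub, map_mul, chartIncl_algebraMap] at h1
    exact h1

/-- **PULL-LAB.**  The label datum of `g` at the point below `n` gives the label datum of the
pull-back of `g` at `n`. -/
theorem LabelAt.pull630 {n : Ideal (chart R ({x} : Set F))}
    {𝒱 : Set (ValuationSubring F)} {𝒱' : Set (ValuationSubring F')}
    (h𝒱 : ∀ V ∈ 𝒱, V.comap (algebraMap F' F) ∈ 𝒱')
    {m : ℕ} {g : F'} {ζ : R} {κ' : ValuationSubring F' → ℕ}
    (h : LabelAt (chart R ({x'} : Set F')) (n.comap (chartIncl hchart)) 𝒱' m g ζ κ') :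
    LabelAt (chart R ({x} : Set F)) n 𝒱 m (algebraMap F' F g) ζ
      (fun V => κ' (V.comap (algebraMap F' F))) := by
  obtain ⟨d, a₀, s₀, η₀, hd, hs₀, hpure, hη₀, hval⟩ := h
  refine ⟨algebraMap F' F d, chartIncl hchart a₀, chartIncl hchart s₀, η₀, ?_, hs₀, ?_, ?_, ?_⟩
  · rwa [Ne, map_eq_zero]
  · rw [chartIncl_coe, chartIncl_coe, ← hpure, map_mul, map_mul, map_pow]
  · intro h1
    apply hη₀
    rw [Ideal.mem_comap, chartIncl_algebraMap]
    exact h1
  · intro V hV hth
    exact ValAt.pull630 hchart (hval _ (h𝒱 V hV) (PassThrough.pull630 hchart hth))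

end Pull

end Fermat.Agent.S59.LoSqC.H630
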